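import Mathlib.Algebra.DirectSum.Module
import Mathlib.LinearAlgebra.Dimension.Constructions
import Mathlib.LinearAlgebra.FiniteDimensional.Lemmas
import Mathlib.RepresentationTheory.Irreducible

/-!
# Clifford's theorem

The translates of a subspace irreducible for a normal subgroup are irreducible for it, so an
irreducible representation is a direct sum of some of them.
-/

set_option autoImplicit false
set_option linter.style.haveILetI false

noncomputable section

open Module

namespace FA.CliffordTheory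

variable {K G V : Type*} [Field K] [Group G] [AddCommGroup V] [Module K V]
  (ρ : Representation K G V)

/-- The subspace is stable under the subgroup. -/
def Stable (N : Subgroup G) (U : Submodule K V) : Prop := ∀ n ∈ N, ∀ u ∈ U, ρ n u ∈ U

/-- The subspace is irreducible for the subgroup. -/
def SimpleOn (N : Subgroup G) (U : Submodule K V) : Prop :=
  U ≠ ⊥ ∧ Stable ρ N U ∧ ∀ W ≤ U, Stable ρ N W → W ≠ ⊥ → W = U

/-- The translate of a subspace. -/
def translate (g : G) (U : Submodule K V) : Submodule K V := U.map (ρ g)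

variable {ρ}

theorem inv_apply (g : G) (v : V) : ρ g⁻¹ (ρ g v) = v := ρ.inv_self_apply g v

theorem mem_translate {g : G} {U : Submodule K V} {v : V} :
    v ∈ translate ρ g U ↔ ρ g⁻¹ v ∈ U := by
  constructor
  · rintro ⟨u, hu, rfl⟩
    rwa [inv_apply]
  · exact fun h => ⟨_, h, ρ.self_inv_apply g v⟩

theorem finrank_translate (g : G) (U : Submodule K V) :
    finrank K (translate ρ g U) = finrank K U :=
  ((Submodule.equivMapOfInjective (ρ g) (ρ.apply_bijective g).injective U)).finrank_eq.symm

theorem translate_translate (g h : G) (U : Submodule K V) :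
    translate ρ g (translate ρ h U) = translate ρ (g * h) U := by
  ext v
  simp only [mem_translate, mul_inv_rev, map_mul, Module.End.mul_apply]

theorem translate_one (U : Submodule K V) : translate ρ 1 U = U := by
  ext v
  simp [mem_translate]

variable {N : Subgroup G}

theorem Stable.inf {U W : Submodule K V} (hU : Stable ρ N U) (hW : Stable ρ N W) :
    Stable ρ N (U ⊓ W) := fun n hn v hv => ⟨hU n hn v hv.1, hW n hn v hv.2⟩

theorem Stable.finset_sup {ι : Type*} {U : ι → Submodule K V} (s : Finset ι)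
    (hU : ∀ i ∈ s, Stable ρ N (U i)) : Stable ρ N (s.sup U) := by
  intro n hn v hv
  have hle : s.sup U ≤ (s.sup U).comap (ρ n) := Finset.sup_le fun i hi x hx =>
    Finset.le_sup (f := U) hi (hU i hi n hn x hx)
  exact hle hv

variable [hN : N.Normal]

include hN

theorem Stable.translate {U : Submodule K V} (hU : Stable ρ N U) (g : G) :
    Stable ρ N (translate ρ g U) := fun n hn v hv => by
  rw [mem_translate] at hv ⊢
  have h := hU _ (hN.conj_mem n hn g⁻¹) _ hv
  rwa [← Module.End.mul_apply, ← map_mul,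
    show g⁻¹ * n * g⁻¹⁻¹ * g⁻¹ = g⁻¹ * n by group, map_mul, Module.End.mul_apply] at h

theorem SimpleOn.translate {U : Submodule K V} (hU : SimpleOn ρ N U) (g : G) :
    SimpleOn ρ N (translate ρ g U) := by
  refine ⟨fun h => hU.1 ?_, hU.2.1.translate g, fun W hW hWs hW0 => ?_⟩
  · rw [← translate_one (ρ := ρ) U, ← inv_mul_cancel g, ← translate_translate, h]
    exact Submodule.map_bot _
  · have h := hU.2.2 (FA.CliffordTheory.translate ρ g⁻¹ W) (fun x hx => ?_) (hWs.translate g⁻¹)
      fun h0 => hW0 ?_
    · rw [← h, translate_translate, mul_inv_cancel, translate_one]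
    · rw [← translate_one (ρ := ρ) U, ← inv_mul_cancel g, ← translate_translate]
      exact Submodule.map_mono hW hx
    · rw [← translate_one (ρ := ρ) W, ← mul_inv_cancel g, ← translate_translate, h0]
      exact Submodule.map_bot _

variable [FiniteDimensional K V]

omit hN in
theorem exists_simpleOn {W : Submodule K V} (hW : Stable ρ N W) (hW0 : W ≠ ⊥) :
    ∃ U ≤ W, SimpleOn ρ N U := by
  induction W using WellFoundedLT.induction with
  | _ W ih =>
    by_cases h : ∀ X ≤ W, Stable ρ N X → X ≠ ⊥ → X = W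
    · exact ⟨W, le_rfl, hW0, hW, h⟩
    push Not at h
    obtain ⟨X, hXW, hXs, hX0, hne⟩ := h
    obtain ⟨U, hU, hUs⟩ := ih X (lt_of_le_of_ne hXW hne) hXs hX0
    exact ⟨U, hU.trans hXW, hUs⟩

omit hN [FiniteDimensional K V] in
/-- A subspace stable under the group is trivial. -/
theorem eq_top_of_stable [hirr : ρ.IsIrreducible] {W : Submodule K V} (hW : Stable ρ ⊤ W)
    (hW0 : W ≠ ⊥) : W = ⊤ := by
  let S : Subrepresentation ρ := ⟨W, fun g v hv => hW g trivial v hv⟩
  rcases eq_bot_or_eq_top S with h | h
  · exact absurd (congrArg Subrepresentation.toSubmodule h) hW0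
  · exact congrArg Subrepresentation.toSubmodule h

omit hN [FiniteDimensional K V] in
/-- The translates of a nonzero subspace generate. -/
theorem iSup_translate [ρ.IsIrreducible] {U : Submodule K V} (hU : U ≠ ⊥) :
    ⨆ g : G, translate ρ g U = ⊤ := by
  refine eq_top_of_stable (ρ := ρ) (fun g _ v hv => ?_) fun h => hU ?_
  · have hle : (⨆ h : G, translate ρ h U).map (ρ g) ≤ ⨆ h : G, translate ρ h U := by
      rw [Submodule.map_iSup]
      exact iSup_le fun h => le_iSup_of_le (g * h) (translate_translate g h U).le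
    exact hle ⟨v, hv, rfl⟩
  · exact le_bot_iff.1 (h ▸ (translate_one (ρ := ρ) U).ge.trans (le_iSup (fun g : G => translate ρ g U) 1))

open scoped Classical in
/-- **Clifford's decomposition.** -/
theorem exists_isInternal [ρ.IsIrreducible] {U : Submodule K V} (hU : SimpleOn ρ N U) :
    ∃ S : Finset G, DirectSum.IsInternal (fun s : S => translate ρ (s : G) U) ∧
      finrank K V = S.card * finrank K U := by
  have hd : 0 < finrank K U :=
    Nat.pos_of_ne_zero fun h => hU.1 (Submodule.finrank_eq_zero.1 h)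
  set P : Finset G → Prop := fun S =>
    finrank K ↥(S.sup fun s => translate ρ s U) = S.card * finrank K U
  have hbd : ∀ S, P S → S.card ≤ finrank K V := fun S hS =>
    le_trans (Nat.le_mul_of_pos_right _ hd) (hS ▸ Submodule.finrank_le _)
  obtain ⟨_, ⟨S, hS, rfl⟩, hmax⟩ := BddAbove.exists_isGreatest_of_nonempty
    (S := Finset.card '' {S | P S}) ⟨finrank K V, by rintro _ ⟨S, hS, rfl⟩; exact hbd S hS⟩
    ⟨0, ∅, show P ∅ by simp [P], rfl⟩
  set Sm := S.sup fun s => translate ρ s U
  have hSm : Sm = ⊤ := by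
    refine top_le_iff.1 ((iSup_translate (ρ := ρ) hU.1).ge.trans (iSup_le fun g => ?_))
    by_contra hg
    have hg' := hU.translate (ρ := ρ) g
    have hinf : translate ρ g U ⊓ Sm = ⊥ := by
      by_contra hne
      refine hg (inf_eq_left.1 (hg'.2.2 _ inf_le_left (hg'.2.1.inf ?_) hne))
      exact Stable.finset_sup S fun i _ => hU.2.1.translate i
    have hnot : g ∉ S := fun h => hg (Finset.le_sup (f := fun s => translate ρ s U) h)
    have hP : P (insert g S) := by
      have h := Submodule.finrank_sup_add_finrank_inf_eq (translate ρ g U) Sm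
      rw [hinf, finrank_bot, add_zero, finrank_translate] at h
      show finrank K ↥((insert g S).sup fun s => translate ρ s U) = _
      rw [Finset.sup_insert, Finset.card_insert_of_notMem hnot, h, add_mul, one_mul,
        show finrank K ↥Sm = _ from hS, add_comm]
    have := hmax ⟨insert g S, hP, rfl⟩
    rw [Finset.card_insert_of_notMem hnot] at this
    omega
  have hV : finrank K V = S.card * finrank K U := by
    rw [← finrank_top K V, ← hSm]
    exact hS
  refine ⟨S, ?_, hV⟩
  set A : S → Submodule K V := fun s => translate ρ (s : G) U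
  have hsurj : Function.Surjective (DirectSum.coeLinearMap A) := by
    rw [← LinearMap.range_eq_top, DirectSum.range_coeLinearMap, eq_top_iff, ← hSm]
    exact Finset.sup_le fun s hs => le_iSup A ⟨s, hs⟩
  have hdim : finrank K (DirectSum S fun s => A s) = finrank K V := by
    rw [finrank_directSum, hV, Finset.sum_congr rfl fun (s : S) _ =>
        (finrank_translate (ρ := ρ) (s : G) U : finrank K (A s) = finrank K U),
      Finset.sum_const, Finset.card_univ, Fintype.card_coe, smul_eq_mul]
  haveI : Module.Finite K (DirectSum S fun s => A s) :=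
    Module.Finite.equiv (DirectSum.linearEquivFunOnFintype K S fun s => A s).symm
  exact ⟨(LinearMap.injective_iff_surjective_of_finrank_eq_finrank hdim).2 hsurj, hsurj⟩

open scoped Classical in
/-- **The constituents are conjugate.** -/
theorem exists_equiv_translate [ρ.IsIrreducible] {U W : Submodule K V} (hU : SimpleOn ρ N U)
    (hW : SimpleOn ρ N W) :
    ∃ g : G, ∃ e : W ≃ₗ[K] translate ρ g U, ∀ n ∈ N, ∀ w w' : W, (w' : V) = ρ n w →
      (e w' : V) = ρ n (e w) := by
  obtain ⟨S, hint, -⟩ := exists_isInternal hU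
  set A : G → Submodule K V := fun s => translate ρ s U
  have htop : S.sup A = ⊤ := by
    rw [Finset.sup_eq_iSup, eq_top_iff, ← hint.submodule_iSup_eq_top]
    exact iSup_le fun s => le_iSup₂_of_le (s : G) s.2 le_rfl
  obtain ⟨_, ⟨T, ⟨hTS, hT⟩, rfl⟩, hmax⟩ := BddAbove.exists_isGreatest_of_nonempty
    (S := Finset.card '' {T | T ⊆ S ∧ W ⊓ T.sup A = ⊥})
    ⟨S.card, by rintro _ ⟨T, hT, rfl⟩; exact Finset.card_le_card hT.1⟩
    ⟨0, ∅, ⟨Finset.empty_subset S, by simp⟩, rfl⟩
  obtain ⟨g, hgS, hgT⟩ : ∃ g ∈ S, g ∉ T := Finset.exists_of_ssubset (hTS.ssubset_of_ne fun h =>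
    hW.1 (by rwa [h, htop, inf_top_eq] at hT))
  set P := T.sup A
  have hPs : Stable ρ N P := Stable.finset_sup T fun i _ => hU.2.1.translate i
  have hg := hU.translate (ρ := ρ) g
  have hWle : W ≤ A g ⊔ P := by
    by_contra hle
    have h0 : W ⊓ (insert g T).sup A = ⊥ := by
      by_contra hne
      refine hle (inf_eq_left.1 ?_)
      rw [Finset.sup_insert] at hne
      exact hW.2.2 _ inf_le_left (hW.2.1.inf fun n hn v hv => by
        obtain ⟨a, ha, b, hb, rfl⟩ := Submodule.mem_sup.1 hv
        rw [map_add]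
        exact Submodule.add_mem_sup (hg.2.1 n hn a ha) (hPs n hn b hb)) hne
    have := hmax ⟨insert g T, ⟨Finset.insert_subset hgS hTS, h0⟩, rfl⟩
    rw [Finset.card_insert_of_notMem hgT] at this
    omega
  have hdis : A g ⊓ P = ⊥ := by
    by_contra hne
    have h := inf_eq_left.1 (hg.2.2 _ inf_le_left (hg.2.1.inf hPs) hne)
    exact hW.1 (le_bot_iff.1 (hT ▸ le_inf le_rfl (hWle.trans (sup_le h le_rfl))))
  set q := P.mkQ
  have hinjW : Function.Injective (q.comp W.subtype) := by
    rw [← LinearMap.ker_eq_bot, LinearMap.ker_comp, Submodule.ker_mkQ,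
      ← Submodule.disjoint_iff_comap_eq_bot, disjoint_iff]
    exact hT
  have hinjU : Function.Injective (q.comp (A g).subtype) := by
    rw [← LinearMap.ker_eq_bot, LinearMap.ker_comp, Submodule.ker_mkQ,
      ← Submodule.disjoint_iff_comap_eq_bot, disjoint_iff]
    exact hdis
  have hex : ∀ w : W, ∃ u : A g, q (u : V) = q (w : V) := fun w => by
    obtain ⟨a, ha, b, hb, hab⟩ := Submodule.mem_sup.1 (hWle w.2)
    refine ⟨⟨a, ha⟩, ?_⟩
    rw [← hab, map_add, show q b = 0 from (Submodule.Quotient.mk_eq_zero P).2 hb, add_zero]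
  choose f hf using hex
  let φ : W →ₗ[K] A g :=
    { toFun := f
      map_add' := fun a b => hinjU (by simp [hf, map_add])
      map_smul' := fun c a => hinjU (by simp [hf, map_smul]) }
  have hφinj : Function.Injective φ := fun a b h => hinjW (by
    show q (a : V) = q (b : V)
    rw [← hf a, ← hf b]
    exact congrArg (fun u : A g => q (u : V)) h)
  have hequi : ∀ n ∈ N, ∀ w w' : W, (w' : V) = ρ n w → (φ w' : V) = ρ n (φ w) := by
    intro n hn w w' hw
    refine congrArg Subtype.val (hinjU (a₂ := ⟨ρ n (φ w), hg.2.1 n hn _ (φ w).2⟩) ?_)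
    show q (f w' : V) = q (ρ n (f w : V))
    rw [hf, hw]
    refine ((Submodule.Quotient.eq P).2 ?_).symm
    rw [← map_sub]
    exact hPs n hn _ ((Submodule.Quotient.eq P).1 (hf w))
  have hrange : (LinearMap.range φ).map (A g).subtype = A g := by
    refine hg.2.2 _ (Submodule.map_subtype_le _ _) ?_ fun h => hW.1 ?_
    · rintro n hn - ⟨-, ⟨w, rfl⟩, rfl⟩
      exact ⟨_, ⟨⟨ρ n w, hW.2.1 n hn _ w.2⟩, rfl⟩, hequi n hn w ⟨ρ n w, hW.2.1 n hn _ w.2⟩ rfl⟩
    · refine (Submodule.eq_bot_iff W).2 fun w hw => ?_
      have h1 : ((φ ⟨w, hw⟩ : A g) : V) ∈ (LinearMap.range φ).map (A g).subtype :=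
        ⟨_, ⟨_, rfl⟩, rfl⟩
      rw [h, Submodule.mem_bot] at h1
      exact congrArg Subtype.val
        (hφinj (a₁ := ⟨w, hw⟩) (a₂ := 0) (by rw [map_zero]; exact Subtype.ext h1))
  have hsurj : Function.Surjective φ := fun u => by
    have hu : (u : V) ∈ (LinearMap.range φ).map (A g).subtype := hrange.symm ▸ u.2
    obtain ⟨y, ⟨w, hw⟩, hy⟩ := hu
    exact ⟨w, hw.trans (Subtype.ext hy)⟩
  exact ⟨g, LinearEquiv.ofBijective φ ⟨hφinj, hsurj⟩, hequi⟩

end FA.CliffordTheory

end
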