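import Fermat.Agent.CharacterTheory.Degree
import Fermat.Agent.CliffordTheory.Clifford
import Mathlib.LinearAlgebra.Eigenspace.Pi
import Mathlib.LinearAlgebra.Eigenspace.Triangularizable

/-!
# The theorems of Schur and Itô

The sum giving Frobenius' divisibility is constant on the cosets of a group of scalars, so the
degree divides its index; for an abelian normal subgroup the weight spaces reduce to this case.
-/

set_option autoImplicit false
set_option linter.style.haveILetI false

noncomputable section

open Finset Module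
open FA.FrobeniusGroups FA.CharacterTheory

namespace FA.CliffordTheory

variable {G : Type*} [Group G] [Fintype G] {V : Type*} [AddCommGroup V] [Module ℂ V]
  [FiniteDimensional ℂ V] (ρ : Representation ℂ G V) [ρ.IsIrreducible]

open scoped Classical in
/-- **Schur's theorem.** -/
theorem finrank_dvd_index {Z : Subgroup G} (hZ : ∀ z ∈ Z, ∃ c : ℂ, ρ z = c • 1) :
    finrank ℂ V ∣ Z.index := by
  set d := finrank ℂ V
  have hd : d ≠ 0 := finrank_ne_zero ρ
  haveI : Nontrivial V := Module.nontrivial_of_finrank_pos (Nat.pos_of_ne_zero hd)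
  obtain ⟨w, hw⟩ := exists_scalar_average ρ (f := ρ.character) fun g x => ρ.char_conj x g
  have htr := congrArg (LinearMap.trace ℂ V) hw
  simp only [map_sum, map_smul, smul_eq_mul, Algebra.algebraMap_eq_smul_one,
    LinearMap.trace_one] at htr
  have hnorm : pairing ρ.character ρ.character = 1 :=
    (FA.Solvable.inner_eq ρ ρ).trans (if_pos rfl)
  rw [pairing, inv_mul_eq_iff_eq_mul₀ (Nat.cast_ne_zero.2 Nat.card_pos.ne'), mul_one] at hnorm
  have hwd : w * d = (Nat.card G : ℂ) := htr.symm.trans hnorm
  set A := integralClosure ℤ ℂ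
  haveI : Algebra.IsIntegral A (MonoidAlgebra A G) := Algebra.IsIntegral.of_finite A _
  set z : MonoidAlgebra A G :=
    ∑ q : G ⧸ Z, (⟨ρ.character q.out, FA.Solvable.isIntegral_character ρ q.out⟩ : A) •
      MonoidAlgebra.of A G q.out⁻¹
  set S : Module.End ℂ V := ∑ q : G ⧸ Z, ρ.character q.out • ρ q.out⁻¹
  have hconst : ∀ x : G, ρ.character x • ρ x⁻¹ =
      ρ.character (QuotientGroup.mk x : G ⧸ Z).out •
        ρ (QuotientGroup.mk x : G ⧸ Z).out⁻¹ := fun x => by
    obtain ⟨⟨h, hh⟩, hx⟩ := QuotientGroup.mk_out_eq_mul Z x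
    obtain ⟨c, hc⟩ := hZ h hh
    have hinv : c • ρ h⁻¹ = 1 := by
      have h1 : ρ h⁻¹ * ρ h = 1 := by rw [← map_mul, inv_mul_cancel, map_one]
      rwa [hc, mul_smul_comm, mul_one] at h1
    have e1 : ρ (x * h) = c • ρ x := by rw [map_mul, hc, mul_smul_comm, mul_one]
    have e2 : ρ.character (x * h) = c * ρ.character x := by
      show LinearMap.trace ℂ V (ρ (x * h)) = c * LinearMap.trace ℂ V (ρ x)
      rw [e1, map_smul, smul_eq_mul]
    rw [hx, e2, mul_inv_rev, map_mul, mul_comm c, mul_smul, ← smul_mul_assoc, hinv, one_mul]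
  have hsum : ∑ x, ρ.character x • ρ x⁻¹ = (Nat.card Z : ℂ) • S := by
    rw [Finset.sum_congr rfl fun x _ => hconst x,
      ← Finset.sum_fiberwise' (g := fun x : G => (QuotientGroup.mk x : G ⧸ Z))
        (f := fun q : G ⧸ Z => ρ.character q.out • ρ q.out⁻¹), Finset.smul_sum]
    refine Finset.sum_congr rfl fun q _ => ?_
    rw [Finset.sum_const, ← Nat.cast_smul_eq_nsmul ℂ]
    congr 2
    rw [← Nat.card_eq_finsetCard]
    refine Nat.card_congr ((Equiv.subtypeEquivRight fun x => ?_).trans
      ((Equiv.mulLeft q.out⁻¹).subtypeEquiv (p := fun x => (QuotientGroup.mk x : G ⧸ Z) = q)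
        (q := fun x => x ∈ Z) fun x => ?_))
    · simp
    · rw [Equiv.coe_mulLeft, ← QuotientGroup.eq, QuotientGroup.out_eq', eq_comm]
  have hZc : (Nat.card Z : ℂ) ≠ 0 := Nat.cast_ne_zero.2 Nat.card_pos.ne'
  have hS : algebraMap ℂ (Module.End ℂ V) (w / Nat.card Z) = S := by
    rw [Algebra.algebraMap_eq_smul_one, div_eq_inv_mul, mul_smul, ← Algebra.algebraMap_eq_smul_one,
      ← hw, hsum, smul_smul, inv_mul_cancel₀ hZc, one_smul]
  have h1 : IsIntegral A (algebraMap ℂ (Module.End ℂ V) (w / Nat.card Z)) := by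
    have h := (Algebra.IsIntegral.isIntegral (R := A) z).map
      (MonoidAlgebra.lift A (Module.End ℂ V) G ρ)
    simp only [z, map_sum, map_smul, MonoidAlgebra.lift_of] at h
    rw [hS]
    exact h
  have h2 : IsIntegral ℤ (w / Nat.card Z) :=
    isIntegral_trans _ ((isIntegral_algebraMap_iff (algebraMap ℂ (Module.End ℂ V)).injective).1 h1)
  have hidx : (Z.index : ℂ) * Nat.card Z = w * d := by
    rw [hwd, ← Z.index_mul_card, Nat.cast_mul]
  have hq : algebraMap ℚ ℂ ((Z.index : ℚ) / d) = w / Nat.card Z := by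
    rw [map_div₀, map_natCast, map_natCast, div_eq_div_iff (Nat.cast_ne_zero.2 hd) hZc, hidx]
  rw [← hq, isIntegral_algebraMap_iff (algebraMap ℚ ℂ).injective] at h2
  obtain ⟨k, hk⟩ := IsIntegrallyClosed.isIntegral_iff.1 h2
  rw [eq_intCast, eq_div_iff (Nat.cast_ne_zero.2 hd)] at hk
  exact Int.natCast_dvd_natCast.1 ⟨k, by rw [mul_comm]; exact_mod_cast hk.symm⟩

/-- The weight spaces of a subgroup. -/
def weightSpace (A : Subgroup G) (χ : A → ℂ) : Submodule ℂ V :=
  ⨅ a : A, Module.End.maxGenEigenspace (ρ (a : G)) (χ a) ⊓ Module.End.eigenspace (ρ (a : G)) (χ a)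

variable {ρ}

omit [Fintype G] [FiniteDimensional ℂ V] [ρ.IsIrreducible] in
theorem mem_weightSpace {A : Subgroup G} {χ : A → ℂ} {v : V} :
    v ∈ weightSpace ρ A χ ↔ ∀ a : A, ρ (a : G) v = χ a • v := by
  simp only [weightSpace, Submodule.mem_iInf, Submodule.mem_inf, Module.End.mem_eigenspace_iff]
  exact ⟨fun h a => (h a).2, fun h a =>
    ⟨Module.End.eigenspace_le_maxGenEigenspace (Module.End.mem_eigenspace_iff.2 (h a)), h a⟩⟩

variable (ρ) in
include ρ in
open scoped Classical in
/-- **Itô's theorem.** -/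
theorem finrank_dvd_index_of_comm {A : Subgroup G} [hA : A.Normal]
    (hcomm : ∀ a ∈ A, ∀ b ∈ A, a * b = b * a) : finrank ℂ V ∣ A.index := by
  have hd : finrank ℂ V ≠ 0 := finrank_ne_zero ρ
  haveI : Nontrivial V := Module.nontrivial_of_finrank_pos (Nat.pos_of_ne_zero hd)
  obtain ⟨U, -, hU⟩ := exists_simpleOn (ρ := ρ) (N := A) (W := ⊤) (fun _ _ _ _ => trivial) top_ne_bot
  -- an eigenvalue of each element on `U`
  have hscal : ∀ a : A, ∃ c : ℂ, ∀ u ∈ U, ρ (a : G) u = c • u := fun a => by
    haveI : Nontrivial U := Submodule.nontrivial_iff_ne_bot.2 hU.1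
    let f : Module.End ℂ U := (ρ (a : G)).restrict fun u hu => hU.2.1 a a.2 u hu
    obtain ⟨c, hc⟩ := Module.End.exists_eigenvalue f
    obtain ⟨u₀, hu₀⟩ := hc.exists_hasEigenvector
    refine ⟨c, fun u hu => ?_⟩
    have h := hU.2.2 (U ⊓ Module.End.eigenspace (ρ (a : G)) c) inf_le_left (fun n hn v hv => ?_)
      fun h0 => hu₀.2 (Subtype.ext ((Submodule.eq_bot_iff _).1 h0 u₀ ⟨u₀.2, ?_⟩))
    · exact Module.End.mem_eigenspace_iff.1 (h.ge hu).2
    · refine ⟨hU.2.1 n hn v hv.1, Module.End.mem_eigenspace_iff.2 ?_⟩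
      rw [← Module.End.mul_apply, ← map_mul, hcomm a a.2 n hn, map_mul, Module.End.mul_apply,
        Module.End.mem_eigenspace_iff.1 hv.2, map_smul]
    · exact Module.End.mem_eigenspace_iff.2 (congrArg Subtype.val (hu₀.apply_eq_smul))
  choose lam hlam using hscal
  -- the weight spaces and their stabiliser
  set shift : G → A → ℂ := fun g a => lam ⟨g⁻¹ * a * g, by
    simpa using hA.conj_mem a a.2 g⁻¹⟩
  set W := weightSpace ρ A lam
  have hshift : ∀ g, translate ρ g W = weightSpace ρ A (shift g) := by
    intro g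
    ext v
    rw [mem_translate, mem_weightSpace, mem_weightSpace]
    constructor
    · intro h a
      have h1 := congrArg (ρ g) (h ⟨g⁻¹ * a * g, by simpa using hA.conj_mem a a.2 g⁻¹⟩)
      rwa [map_smul, ρ.self_inv_apply, ← Module.End.mul_apply, ← map_mul, ← Module.End.mul_apply,
        ← map_mul, show g * (g⁻¹ * (a : G) * g) * g⁻¹ = (a : G) by group] at h1
    · intro h a
      have h1 := congrArg (ρ g⁻¹) (h ⟨g * a * g⁻¹, hA.conj_mem a a.2 g⟩)
      rw [map_smul, ← Module.End.mul_apply, ← map_mul,
        show g⁻¹ * (g * a * g⁻¹) = (a : G) * g⁻¹ by group, map_mul, Module.End.mul_apply] at h1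
      rw [h1]
      congr 1
      exact congrArg lam (Subtype.ext (show g⁻¹ * (g * (a : G) * g⁻¹) * g = a by group))
  have hW0 : W ≠ ⊥ := fun h => hU.1 (le_bot_iff.1 (h ▸ fun u hu =>
    mem_weightSpace.2 fun a => hlam a u hu))
  let T : Subgroup G :=
    { carrier := {g | translate ρ g W = W}
      one_mem' := translate_one W
      mul_mem' := fun {a b} ha hb => by
        show translate ρ (a * b) W = W
        rw [← translate_translate, hb, ha]
      inv_mem' := fun {a} ha => by
        show translate ρ a⁻¹ W = W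
        conv_lhs => rw [← show translate ρ a W = W from ha]
        rw [translate_translate, inv_mul_cancel, translate_one] }
  have hAT : A ≤ T := fun a ha => by
    show translate ρ a W = W
    ext v
    rw [mem_translate]
    constructor
    · intro hv
      have h := Submodule.smul_mem W (lam ⟨a, ha⟩) hv
      rw [← mem_weightSpace.1 hv ⟨a, ha⟩] at h
      simpa using h
    · intro hv
      rw [mem_weightSpace.1 hv ⟨a⁻¹, inv_mem ha⟩]
      exact Submodule.smul_mem W _ hv
  -- the orbit
  let O := Finset.univ.image shift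
  have hfib : ∀ g h : G, translate ρ g W = translate ρ h W ↔ (g : G ⧸ T) = h := fun g h => by
    rw [QuotientGroup.eq]
    constructor
    · intro e
      show translate ρ (g⁻¹ * h) W = W
      rw [← translate_translate, ← e, translate_translate, inv_mul_cancel, translate_one]
    · intro e
      rw [show h = g * (g⁻¹ * h) by group, ← translate_translate, show translate ρ (g⁻¹ * h) W = W from e]
  have hind : iSupIndep fun χ : A → ℂ => weightSpace ρ A χ := by
    refine iSupIndep.mono (Module.End.independent_iInf_maxGenEigenspace_of_forall_mapsTo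
      (fun a : A => ρ (a : G)) fun a b φ => ?_) fun χ => iInf_mono fun a => inf_le_left
    refine Module.End.mapsTo_maxGenEigenspace_of_comm ?_ φ
    show ρ (b : G) * ρ (a : G) = ρ (a : G) * ρ (b : G)
    rw [← map_mul, ← map_mul, hcomm b b.2 a a.2]
  have hinj : ∀ χ ∈ O, ∀ ψ ∈ O, weightSpace ρ A χ = weightSpace ρ A ψ → χ = ψ := by
    intro χ hχ ψ _ e
    by_contra hne
    obtain ⟨g, -, rfl⟩ := Finset.mem_image.1 hχ
    have h0 : weightSpace ρ A (shift g) = ⊥ :=
      disjoint_self.1 ((hind.pairwiseDisjoint hne).mono_right e.le)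
    rw [← hshift] at h0
    refine hW0 ?_
    rw [← translate_one (ρ := ρ) W, ← inv_mul_cancel g, ← translate_translate, h0]
    exact Submodule.map_bot _
  have hO : O.card = T.index := by
    rw [T.index_eq_card, ← Nat.card_eq_finsetCard]
    refine (Nat.card_congr (Equiv.ofBijective (fun q : G ⧸ T =>
      (⟨shift q.out, Finset.mem_image_of_mem _ (Finset.mem_univ _)⟩ : O)) ⟨fun p q h => ?_, ?_⟩)).symm
    · have e : translate ρ p.out W = translate ρ q.out W := by
        rw [hshift, hshift, show shift p.out = shift q.out from congrArg Subtype.val h]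
      simpa using (hfib _ _).1 e
    · rintro ⟨χ, hχ⟩
      obtain ⟨g, -, rfl⟩ := Finset.mem_image.1 hχ
      refine ⟨(g : G ⧸ T), Subtype.ext (hinj _ (Finset.mem_image_of_mem _ (Finset.mem_univ _)) _ hχ ?_)⟩
      rw [← hshift, ← hshift, hfib, QuotientGroup.out_eq']
  have hV : finrank ℂ V = T.index * finrank ℂ W := by
    have hint : DirectSum.IsInternal fun χ : O => weightSpace ρ A (χ : A → ℂ) := by
      rw [DirectSum.isInternal_submodule_iff_iSupIndep_and_iSup_eq_top]
      refine ⟨hind.comp Subtype.val_injective, top_le_iff.1 ((iSup_translate (ρ := ρ) hW0).ge.trans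
        (iSup_le fun g => le_iSup_of_le ⟨shift g, Finset.mem_image_of_mem _ (Finset.mem_univ _)⟩
          (hshift g).le))⟩
    have h := (LinearEquiv.ofBijective (DirectSum.coeLinearMap _) hint).finrank_eq
    rw [finrank_directSum, Finset.sum_const_nat (m := finrank ℂ W) fun χ _ => ?_, Finset.card_univ,
      Fintype.card_coe, hO] at h
    · exact h.symm
    · obtain ⟨g, -, hg⟩ := Finset.mem_image.1 χ.2
      rw [← hg, ← hshift, finrank_translate]
  -- irreducibility for the stabiliser
  let σ : Representation ℂ T W :=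
    { toFun := fun t => (ρ (t : G)).restrict fun v hv =>
        (show translate ρ (t : G) W = W from t.2).le ⟨v, hv, rfl⟩
      map_one' := by ext v; simp
      map_mul' := fun a b => by ext v; simp }
  haveI : σ.IsIrreducible := by
    haveI : Nontrivial W := Submodule.nontrivial_iff_ne_bot.2 hW0
    haveI : Nontrivial (Subrepresentation σ) := ⟨⊥, ⊤, fun h => by
      obtain ⟨v, hv⟩ := exists_ne (0 : W)
      exact hv (show v ∈ (⊥ : Subrepresentation σ) from h ▸ trivial)⟩
    refine ⟨fun S => or_iff_not_imp_left.2 fun hS => ?_⟩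
    set W' := S.toSubmodule.map W.subtype with hW'
    have hW'0 : W' ≠ ⊥ := fun h => hS (Subrepresentation.toSubmodule_injective
      (Submodule.map_injective_of_injective W.injective_subtype (h.trans (Submodule.map_bot _).symm)))
    have hfix : ∀ g h : G, (g : G ⧸ T) = h → translate ρ h W' ≤ translate ρ g W' := by
      intro g h e
      rw [show h = g * (g⁻¹ * h) by group, ← translate_translate]
      refine Submodule.map_mono ?_
      rintro - ⟨-, ⟨v, hv, rfl⟩, rfl⟩
      exact ⟨_, S.apply_mem_toSubmodule ⟨g⁻¹ * h, QuotientGroup.eq.1 e⟩ hv, rfl⟩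
    have hsup : (Finset.univ : Finset (G ⧸ T)).sup (fun q => translate ρ q.out W') = ⊤ :=
      top_le_iff.1 ((iSup_translate (ρ := ρ) hW'0).ge.trans (iSup_le fun g =>
        (hfix _ g (QuotientGroup.out_eq' (g : G ⧸ T))).trans
          (Finset.le_sup (f := fun q : G ⧸ T => translate ρ q.out W') (Finset.mem_univ _))))
    have hle : ∀ s : Finset (G ⧸ T),
        finrank ℂ ↥(s.sup fun q => translate ρ q.out W') ≤ s.card * finrank ℂ W' := by
      intro s
      induction s using Finset.induction with
      | empty => simp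
      | @insert q s hq ih =>
        rw [Finset.sup_insert, Finset.card_insert_of_notMem hq, add_mul, one_mul]
        refine (Submodule.finrank_add_le_finrank_add_finrank _ _).trans ?_
        rw [finrank_translate, add_comm]
        omega
    have h := hle Finset.univ
    rw [hsup, finrank_top, Finset.card_univ, ← Nat.card_eq_fintype_card,
      ← T.index_eq_card, hV] at h
    have hWW : W' = W := Submodule.eq_of_le_of_finrank_le (Submodule.map_subtype_le _ _)
      (Nat.le_of_mul_le_mul_left h (Nat.pos_of_ne_zero Subgroup.index_ne_zero_of_finite))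
    exact Subrepresentation.toSubmodule_injective (Submodule.map_injective_of_injective
      W.injective_subtype (hWW.trans W.map_subtype_top.symm))
  have hdvd := finrank_dvd_index σ (Z := A.subgroupOf T) fun z hz =>
    ⟨lam ⟨_, hz⟩, LinearMap.ext fun v => Subtype.ext (mem_weightSpace.1 v.2 ⟨_, hz⟩)⟩
  rw [hV, ← Subgroup.relIndex_mul_index hAT, mul_comm]
  exact Nat.mul_dvd_mul_right hdvd _

end FA.CliffordTheory

end
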