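import Mathlib.LinearAlgebra.FiniteDimensional.Lemmas
import Mathlib.RepresentationTheory.Irreducible
import Mathlib.RepresentationTheory.Maschke
import Mathlib.GroupTheory.Solvable

/-!
# Taketa's theorem

A monomial representation of degree `n + 1` permutes lines, so the terms of the derived series
which fix the representations of degree `n` fix the lines, and their commutators fix everything.
-/

set_option autoImplicit false
set_option linter.style.haveILetI false

noncomputable section

open Module

universe u

namespace FA.CliffordTheory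

variable {K : Type*} [Field K] [CharZero K] {G : Type*} [Group G] {n : ℕ}

/-- Some basis is permuted up to scalars. -/
def Monomial {V : Type*} [AddCommGroup V] [Module K V] (ρ : Representation K G V) : Prop :=
  ∃ (m : ℕ) (b : Basis (Fin m) K V), ∀ g i, ∃ j, ∃ c : K, ρ g (b i) = c • b j

/-- The sum-zero functions under a permutation action. -/
theorem perm_eq_self {m : ℕ} (hm : m ≤ n + 1) (π : G →* Equiv.Perm (Fin m)) {D : Subgroup G}
    (hD : ∀ (d : ℕ) (ρ : Representation K G (Fin d → K)), d ≤ n → ∀ g ∈ D, ρ g = 1) {g : G}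
    (hg : g ∈ D) (i : Fin m) : π g i = i := by
  by_contra hne
  let e : Representation K G (Fin m → K) :=
    { toFun := fun h => LinearMap.funLeft K K (π h⁻¹)
      map_one' := by ext f i; simp
      map_mul' := fun a b => by ext f i; simp [mul_inv_rev] }
  set Z : Submodule K (Fin m → K) := LinearMap.ker (∑ j, (LinearMap.proj j : (Fin m → K) →ₗ[K] K))
  have hZ : ∀ h, ∀ f ∈ Z, e h f ∈ Z := fun h f hf => by
    simp only [Z, LinearMap.mem_ker, LinearMap.sum_apply, LinearMap.proj_apply] at hf ⊢
    show ∑ j, f (π h⁻¹ j) = 0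
    rwa [Equiv.sum_comp (π h⁻¹) f]
  let σ : Representation K G Z :=
    { toFun := fun h => (e h).restrict (hZ h)
      map_one' := by ext v; simp
      map_mul' := fun a b => by ext v; simp }
  have hlt : finrank K Z < m := by
    have hne' : Z ≠ ⊤ := fun h => by
      have h1 : (Pi.single i 1 : Fin m → K) ∈ Z := h ▸ trivial
      simp [Z, Finset.sum_pi_single'] at h1
    have := Submodule.finrank_lt hne'
    rwa [finrank_fin_fun] at this
  let t : Z ≃ₗ[K] (Fin (finrank K Z) → K) := (Module.finBasis K Z).equivFun
  let σ' : Representation K G (Fin (finrank K Z) → K) :=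
    { toFun := fun h => t.conj (σ h)
      map_one' := by ext v; simp
      map_mul' := fun a b => by ext v; simp [LinearEquiv.conj_apply] }
  have hσ : σ g = 1 := t.conj.injective ((hD _ σ' (by omega) g hg).trans (by ext v; simp))
  have hmem : (Pi.single i 1 - Pi.single (π g i) 1 : Fin m → K) ∈ Z := by
    simp [Z, Finset.sum_sub_distrib]
  have h := congrFun (congrArg Subtype.val
    (LinearMap.congr_fun hσ ⟨_, hmem⟩)) (π g i)
  change (Pi.single i 1 - Pi.single (π g i) 1 : Fin m → K) (π g⁻¹ (π g i)) =
    (Pi.single i 1 - Pi.single (π g i) 1 : Fin m → K) (π g i) at h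
  rw [← Equiv.Perm.mul_apply, ← map_mul, inv_mul_cancel, map_one, Equiv.Perm.one_apply] at h
  simp [Ne.symm hne, hne] at h
  norm_num at h

/-- The commutators of a subgroup fixing small representations fix monomial ones. -/
theorem Monomial.fixes {V : Type*} [AddCommGroup V] [Module K V] {ρ : Representation K G V}
    (hρ : Monomial ρ) (hn : finrank K V ≤ n + 1) {D : Subgroup G}
    (hD : ∀ (d : ℕ) (σ : Representation K G (Fin d → K)), d ≤ n → ∀ g ∈ D, σ g = 1) :
    ∀ g ∈ ⁅D, D⁆, ρ g = 1 := by
  obtain ⟨m, b, hb⟩ := hρ
  choose p c hp using hb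
  have hm : m ≤ n + 1 := by
    rw [finrank_eq_card_basis b, Fintype.card_fin] at hn
    exact hn
  have hc : ∀ g i, c g i ≠ 0 := fun g i h => b.ne_zero i ((ρ.apply_bijective g).injective (by
    rw [hp, h, zero_smul, map_zero]))
  have huniq : ∀ g i j (a : K), ρ g (b i) = a • b j → p g i = j := fun g i j a h => by
    rw [hp] at h
    by_contra hne
    have h1 := congrArg (fun v => b.repr v (p g i)) h
    simp [Ne.symm hne] at h1
    exact hc g i h1
  have hone : ∀ i, p 1 i = i := fun i => huniq 1 i i 1 (by rw [map_one, one_smul]; rfl)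
  have hmul : ∀ g h i, p (g * h) i = p g (p h i) := fun g h i => huniq _ _ _ (c h i * c g (p h i))
    (by rw [map_mul, Module.End.mul_apply, hp, map_smul, hp, smul_smul])
  let π : G →* Equiv.Perm (Fin m) :=
    { toFun := fun g =>
        { toFun := p g
          invFun := p g⁻¹
          left_inv := fun i => by rw [← hmul, inv_mul_cancel, hone]
          right_inv := fun i => by rw [← hmul, mul_inv_cancel, hone] }
      map_one' := Equiv.ext hone
      map_mul' := fun a b => Equiv.ext (hmul a b) }
  have hdiag : ∀ g ∈ D, ∀ i, ρ g (b i) = c g i • b i := fun g hg i => by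
    conv_lhs => rw [hp]
    rw [show p g i = i from perm_eq_self hm π hD hg i]
  have hcomm : ⁅D, D⁆ ≤ ρ.asGroupHom.ker := Subgroup.commutator_le.2 fun x hx y hy => by
    rw [MonoidHom.mem_ker, map_commutatorElement, commutatorElement_eq_one_iff_mul_comm]
    refine Units.ext (b.ext fun i => ?_)
    show ρ x (ρ y (b i)) = ρ y (ρ x (b i))
    rw [hdiag y hy, map_smul, hdiag x hx, map_smul, hdiag y hy, smul_comm]
  intro g hg
  exact congrArg Units.val (MonoidHom.mem_ker.1 (hcomm hg))

/-- By Maschke, fixing the irreducible representations is fixing all of them. -/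
theorem fixes_of_irreducible [Finite G] {D : Subgroup G}
    (hD : ∀ (d : ℕ) (ρ : Representation K G (Fin d → K)), d ≤ n → ρ.IsIrreducible →
      ∀ g ∈ D, ρ g = 1) :
    ∀ (d : ℕ) (ρ : Representation K G (Fin d → K)), d ≤ n → ∀ g ∈ D, ρ g = 1 := by
  intro d
  induction d using Nat.strong_induction_on with
  | _ d ih =>
    intro ρ hd g hg
    by_cases hirr : ρ.IsIrreducible
    · exact hD d ρ hd hirr g hg
    rcases Nat.eq_zero_or_pos d with rfl | hd0
    · exact LinearMap.ext fun v => Subsingleton.elim _ _
    have hex : ∃ S : Subrepresentation ρ, S ≠ ⊥ ∧ S ≠ ⊤ := by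
      by_contra h
      push Not at h
      haveI : NeZero d := ⟨hd0.ne'⟩
      haveI : Nontrivial (Subrepresentation ρ) := ⟨⊥, ⊤, fun e => by
        obtain ⟨v, hv⟩ := exists_ne (0 : Fin d → K)
        exact hv (show v ∈ (⊥ : Subrepresentation ρ) from e ▸ trivial)⟩
      exact hirr ⟨fun S => or_iff_not_imp_left.2 (h S)⟩
    obtain ⟨S, hS0, hS1⟩ := hex
    obtain ⟨Q, hQ⟩ := exists_isCompl S
    have key : ∀ P : Subrepresentation ρ, P ≠ ⊤ → ∀ v ∈ P, ρ g v = v := by
      intro P hP v hv
      have hlt : finrank K P.toSubmodule < d := by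
        have hne : P.toSubmodule ≠ ⊤ := fun e => hP (Subrepresentation.toSubmodule_injective e)
        have := Submodule.finrank_lt hne
        rwa [finrank_fin_fun] at this
      let t : P.toSubmodule ≃ₗ[K] (Fin (finrank K P.toSubmodule) → K) :=
        (Module.finBasis K P.toSubmodule).equivFun
      let σ : Representation K G (Fin (finrank K P.toSubmodule) → K) :=
        { toFun := fun h => t.conj (P.toRepresentation h)
          map_one' := by ext w; simp
          map_mul' := fun a b => by ext w; simp [LinearEquiv.conj_apply] }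
      have h1 : P.toRepresentation g = 1 :=
        t.conj.injective ((ih _ hlt σ (by omega) g hg).trans (by ext w; simp))
      exact congrArg Subtype.val (LinearMap.congr_fun h1 ⟨v, hv⟩)
    refine LinearMap.ext fun v => ?_
    have hv : v ∈ S.toSubmodule ⊔ Q.toSubmodule := by
      rw [← Subrepresentation.toSubmodule_sup, hQ.sup_eq_top]
      trivial
    obtain ⟨a, ha, b, hb, rfl⟩ := Submodule.mem_sup.1 hv
    rw [map_add, key S hS1 a ha, key Q (fun e => hS0 (by simpa [e] using hQ.inf_eq_bot)) b hb]
    rfl

/-- **Taketa's theorem.** -/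
theorem isSolvable_of_monomial [Finite G]
    (h : ∀ (d : ℕ) (ρ : Representation K G (Fin d → K)), ρ.IsIrreducible → Monomial ρ) :
    Group.IsSolvable G := by
  have key : ∀ n, ∀ (d : ℕ) (ρ : Representation K G (Fin d → K)), d ≤ n →
      ∀ g ∈ derivedSeries G n, ρ g = 1 := by
    intro n
    induction n with
    | zero =>
      intro d ρ hd g _
      obtain rfl : d = 0 := by omega
      exact LinearMap.ext fun v => Subsingleton.elim _ _
    | succ n ih =>
      refine fixes_of_irreducible fun d ρ hd hirr g hg => (h d ρ hirr).fixes (n := n) ?_ ih g ?_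
      · rwa [finrank_fin_fun]
      · rwa [derivedSeries_succ] at hg
  classical
  haveI := Fintype.ofFinite G
  refine (Group.isSolvable_def G).2 ⟨Nat.card G, (Subgroup.eq_bot_iff_forall _).2 fun g hg => ?_⟩
  let e : Fin (Nat.card G) ≃ G := (Finite.equivFin G).symm
  let ρ : Representation K G (Fin (Nat.card G) → K) :=
    { toFun := fun h => LinearMap.funLeft K K fun i => e.symm (h⁻¹ * e i)
      map_one' := by ext f i; simp
      map_mul' := fun a b => by ext f i; simp [mul_assoc] }
  have h1 := congrFun (LinearMap.congr_fun (key (Nat.card G) _ ρ le_rfl g hg)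
    (Pi.single (e.symm 1) 1)) (e.symm g)
  simp [ρ] at h1
  by_contra hne
  rw [Pi.single_eq_of_ne fun e' => hne (e.symm.injective e')] at h1
  exact one_ne_zero h1

end FA.CliffordTheory

end
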